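/-
Row 38, WALL-p, leaf DLOG (I2), sub-leaf (KH) = `H712.KummerHeckeStatement`  (helper779).
Frozen interface: `Ribet/H712/DlogSpec.lean` (helper712).

`T_ℓ x = a x`, `x = [D]`, `div f = p D`  ⟹  `Nm_α(β f) = c · f^a · u^p`.
Proof: `T_ℓ [D] = [D']` with `p D' = div (Nm_α(β f))` (`S29.H395.heckeOperatorBar_mk`, Hecke inputs
`Lib.FF398.heckeInputsAlong`); `[D'] = [a D]` gives `u` with `D' - a D = div u`; the quotient
`Nm_α(β f) / (f^a u^p)` has trivial divisor, hence is a constant (`S18.H65.constOfOrdZero_bar`).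
-/
import Fermat.Agent.Ribet.H712.DlogSpec
import Fermat.Agent.Lib.FF398.Hecke
import Fermat.Agent.S18.H65.ConstF

set_option autoImplicit false
set_option linter.style.haveILetI false
set_option synthInstance.maxHeartbeats 400000
set_option maxHeartbeats 1000000

noncomputable section

namespace Fermat.Agent.Ribet.H779

open AlgebraicCurve ModularCurve
open Fermat.Agent.S24 Fermat.Agent.Ribet.H884 Fermat.Agent.Ribet.H712

/-- **(KH)** a Kummer generator of a `T_ℓ`-eigenclass satisfies the Hecke relation. -/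
theorem kummerHecke : KummerHeckeStatement := by
  intro N p _ hp ℓ _ x f hfK a hTx
  obtain ⟨hf0, D, hDx, hD⟩ := hfK
  haveI : NeZero (ℓ : ℕ) := ⟨ℓ.2.ne_zero⟩
  have hHI := Fermat.Agent.Lib.FF398.heckeInputsAlong N (ℓ : ℕ)
  obtain ⟨D', hD', hK⟩ := Fermat.Agent.S29.H395.heckeOperatorBar_mk N ℓ hHI D
  have hK' := hK (p : ℤ) f hf0 (fun v => (hD v).symm)
  -- `[D'] = a • [D] = [a • D]`
  have h1 : Pic0.mk D' = Pic0.mk (a • D) := by
    rw [← hD', hDx, hTx, ← hDx]
    rfl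
  obtain ⟨u, hu0, hu⟩ := Fermat.Agent.S29.H395.mk_eq_mk_iff.1 h1
  have hG0 : Fermat.Agent.S29.H395.heckeNorm N (ℓ : ℕ) f ≠ 0 :=
    Fermat.Agent.S29.H395.heckeNorm_ne_zero N (ℓ : ℕ) hHI hf0
  have hfa0 : f ^ a ≠ 0 := zpow_ne_zero a hf0
  have hup0 : u ^ p ≠ 0 := pow_ne_zero p hu0
  have hden0 : f ^ a * u ^ p ≠ 0 := mul_ne_zero hfa0 hup0
  -- the quotient has trivial divisor
  have hord : ∀ v : Place (AlgebraicClosure ℚ) (modularFunctionFieldBar N),
      v.ord (Fermat.Agent.S29.H395.heckeNorm N (ℓ : ℕ) f * (f ^ a * u ^ p)⁻¹) = 0 := by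
    intro v
    have e1 : v.ord (u ^ p) = (p : ℤ) * v.ord u := by
      rw [← zpow_natCast, Place.ord_zpow]
    have e2 : (D' : Divisor (AlgebraicClosure ℚ) (modularFunctionFieldBar N)) v =
        a * (D : Divisor (AlgebraicClosure ℚ) (modularFunctionFieldBar N)) v + v.ord u := by
      have := hu v
      rw [AddSubgroup.coe_zsmul, Finsupp.smul_apply, smul_eq_mul] at this
      linarith
    rw [Place.ord_mul v hG0 (inv_ne_zero hden0), Place.ord_inv, Place.ord_mul v hfa0 hup0,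
      Place.ord_zpow, e1, ← hK' v, e2, hD v]
    ring
  obtain ⟨c, hc⟩ := Fermat.Agent.S18.H65.constOfOrdZero_bar N _
    (mul_ne_zero hG0 (inv_ne_zero hden0)) hord
  have hc0 : c ≠ 0 := by
    intro h0
    rw [h0, map_zero] at hc
    exact mul_ne_zero hG0 (inv_ne_zero hden0) hc
  refine ⟨c, u, hc0, hu0, ?_⟩
  show Fermat.Agent.S29.H395.heckeNorm N (ℓ : ℕ) f = _
  rw [mul_assoc, ← hc, mul_assoc, inv_mul_cancel₀ hden0, mul_one]

end Fermat.Agent.Ribet.H779

end
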